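import Fermat.Agent.S19.H255.LocalAbs
import Fermat.Agent.S14.H714.Trans
import Fermat.Prelude.Def_GaloisRep_Flat

/-!
# Cell A3 / S19, work package L05 (helper255): the local criterion over `ℤ̄_(ℓ)`

Notation of `coord/A3.md` (origin/helper15): `R = GaloisRep.ratLocalizedAt ℓ = ℤ_(ℓ)`,
`Qb = ℚ̄`, `Zb = integralClosure R Qb`, `Gal = Qb ≃ₐ[ℚ] Qb`.

Main results (`X` a finite set with a map `act : Gal → X → X`, `S` a set of functions `X → Qb`
with `R`-integral values, Galois-equivariant and separating the points of `X`;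
`B = Algebra.adjoin Zb S`):

* `mem_adjoin_of_local` (**L05a + L05c**): an equivariant function `b : X → Qb` lies in `B` as
  soon as, for ONE valuation subring `A₀` of `Qb` over `ℓ` and every point `x₀`, there are
  `p, q ∈ B` with `q x₀` a unit of `A₀` and `q x * b x = p x` for all `x` in the residue disc
  `{x | ∀ s ∈ S, s x ≡ s x₀ mod 𝔪_{A₀}}` of `x₀`.
* `mem_adjoin_of_forall_place`: the same with the hypothesis at every valuation subring over `ℓ`
  (no equivariance needed).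
* `inv_mem_adjoin` (**L05b**): `q ∈ B` with all values units of `Zb` ⇒ `q⁻¹ ∈ B`.
* (file `AddMem.lean`) `add_mem_of_local`, `orderDatum_of_local`: the criterion in the exact
  shape of the field `add_mem` of `OrderDatum` (`S19/Defs.lean`).

All proofs complete; imports Mathlib, the Prelude and the landed file `S14/H714/Trans.lean`.
-/

set_option autoImplicit false
set_option linter.style.haveILetI false

open scoped Pointwise

namespace Fermat.Agent.S19.H255

open Fermat.Agent.S14.H714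

/-- `ℤ_(ℓ)` -/
abbrev Rl (ℓ : ℕ) : Subring ℚ := GaloisRep.ratLocalizedAt ℓ

/-- the integral closure of `ℤ_(ℓ)` in `ℚ̄` -/
noncomputable abbrev Zb (ℓ : ℕ) : Subalgebra (Rl ℓ) Qb := integralClosure (Rl ℓ) Qb

section Basic

variable {ℓ : ℕ}

theorem ratCast_mem_of_den (A : ValuationSubring Qb) (hℓ : ℓ.Prime) (hA : (ℓ : Qb) ∈ A.nonunits)
    (r : ℚ) (hr : r.den.Coprime ℓ) : algebraMap ℚ Qb r ∈ A := by
  have hnd : ¬ (ℓ : ℤ) ∣ (r.den : ℤ) := by
    intro h
    have h1 : ℓ ∣ r.den := by exact_mod_cast h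
    have h2 : ℓ ∣ Nat.gcd r.den ℓ := Nat.dvd_gcd h1 dvd_rfl
    rw [Nat.Coprime] at hr
    rw [hr] at h2
    exact hℓ.one_lt.ne' (Nat.dvd_one.mp h2)
  have h3 := intCast_not_mem_nonunits A hℓ hA hnd
  obtain ⟨-, hinv⟩ := inv_mem_of_not_mem_nonunits A h3
  have hr' : algebraMap ℚ Qb r = (r.num : Qb) * ((r.den : ℤ) : Qb)⁻¹ := by
    conv_lhs => rw [← Rat.num_div_den r]
    rw [map_div₀, map_intCast, map_natCast, div_eq_mul_inv]
    simp
  rw [hr']
  exact A.mul_mem _ _ (intCast_mem A _) hinv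

theorem algebraMap_Rl_mem (A : ValuationSubring Qb) (hℓ : ℓ.Prime) (hA : (ℓ : Qb) ∈ A.nonunits)
    (r : Rl ℓ) : algebraMap (Rl ℓ) Qb r ∈ A :=
  ratCast_mem_of_den A hℓ hA (r : ℚ) r.2

/-- `ℤ_(ℓ)`-integral elements lie in every valuation subring over `ℓ`. -/
theorem mem_of_isIntegral_Rl (A : ValuationSubring Qb) (hℓ : ℓ.Prime)
    (hA : (ℓ : Qb) ∈ A.nonunits) {x : Qb} (hx : IsIntegral (Rl ℓ) x) : x ∈ A := by
  let φ : Rl ℓ →+* A :=
    { toFun := fun r => ⟨algebraMap (Rl ℓ) Qb r, algebraMap_Rl_mem A hℓ hA r⟩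
      map_one' := Subtype.ext (map_one _)
      map_mul' := fun a b => Subtype.ext (map_mul _ a b)
      map_zero' := Subtype.ext (map_zero _)
      map_add' := fun a b => Subtype.ext (map_add _ a b) }
  letI : Algebra (Rl ℓ) A := φ.toAlgebra
  haveI : IsScalarTower (Rl ℓ) A Qb := IsScalarTower.of_algebraMap_eq (fun r => rfl)
  have h : IsIntegral A x := hx.tower_top
  obtain ⟨y, hy⟩ := (IsIntegrallyClosed.isIntegral_iff (R := A) (K := Qb)).mp h
  rw [← hy]
  exact y.2

/-- A valuation subring of `ℚ̄` containing `Zb` is trivial or lies over `ℓ`. -/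
theorem eq_top_or_liesOver_of_le (hℓ : ℓ.Prime) (V : ValuationSubring Qb)
    (hV : ∀ x : Qb, IsIntegral (Rl ℓ) x → x ∈ V) : V = ⊤ ∨ (ℓ : Qb) ∈ V.nonunits := by
  rcases eq_top_or_liesOver V with h | ⟨ℓ', hℓ', h⟩
  · exact Or.inl h
  · right
    by_cases hll : ℓ' = ℓ
    · rw [← hll]; exact h
    · exfalso
      -- `1/ℓ'` lies in `ℤ_(ℓ)`
      have hcop : ((ℓ' : ℚ)⁻¹).den.Coprime ℓ := by
        have hden : ((ℓ' : ℚ)⁻¹).den = ℓ' := by
          have := Rat.inv_natCast_den ℓ'
          rw [this, if_neg hℓ'.ne_zero]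
        rw [hden]
        exact (Nat.coprime_primes hℓ' hℓ).mpr hll
      have hmem : algebraMap (Rl ℓ) Qb ⟨(ℓ' : ℚ)⁻¹, hcop⟩ ∈ V :=
        hV _ isIntegral_algebraMap
      have heq : algebraMap (Rl ℓ) Qb ⟨(ℓ' : ℚ)⁻¹, hcop⟩ = ((ℓ' : Qb))⁻¹ := by
        show algebraMap ℚ Qb ((ℓ' : ℚ)⁻¹) = _
        rw [map_inv₀, map_natCast]
      rw [heq] at hmem
      rw [ValuationSubring.mem_nonunits_iff_or] at h
      rcases h with h | h
      · exact hℓ'.ne_zero (by exact_mod_cast h)
      · exact h hmem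

/-- Two valuation subrings of `ℚ̄` over `ℓ` are conjugate. -/
theorem exists_smul_eq (hℓ : ℓ.Prime) (A A' : ValuationSubring Qb)
    (hA : (ℓ : Qb) ∈ A.nonunits) (hA' : (ℓ : Qb) ∈ A'.nonunits) : ∃ ρ : G, ρ • A' = A := by
  have key : ∀ (B : ValuationSubring Qb), (ℓ : Qb) ∈ B.nonunits → ∀ r : ℚ,
      algebraMap ℚ Qb r ∈ B ↔ r.den.Coprime ℓ := by
    intro B hB r
    constructor
    · intro hr
      by_contra hcop
      have hdvd : ℓ ∣ r.den := by
        by_contra hnd
        exact hcop ((Nat.Coprime.symm ((Nat.Prime.coprime_iff_not_dvd hℓ).mpr hnd)))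
      -- `den ∈ 𝔪`, hence `num = r * den ∈ 𝔪`, hence `ℓ ∣ num`
      obtain ⟨c, hc⟩ := hdvd
      have hden : ((r.den : ℤ) : Qb) ∈ B.nonunits := by
        have : ((r.den : ℤ) : Qb) = (ℓ : Qb) * ((c : ℤ) : Qb) := by
          rw [hc]; push_cast; ring
        rw [this]
        exact nonunits_mul_mem B hB (intCast_mem B _)
      have hnum : ((r.num : ℤ) : Qb) ∈ B.nonunits := by
        have : ((r.num : ℤ) : Qb) = ((r.den : ℤ) : Qb) * algebraMap ℚ Qb r := by
          have h1 : (r.num : ℚ) = (r.den : ℚ) * r := by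
            rw [mul_comm]; exact (Rat.mul_den_eq_num r).symm
          have h2 := congrArg (algebraMap ℚ Qb) h1
          rw [map_mul, map_intCast, map_natCast] at h2
          rw [h2]; push_cast; ring
        rw [this]
        exact nonunits_mul_mem B hden hr
      have hdn : (ℓ : ℤ) ∣ r.num := by
        by_contra hnd
        exact intCast_not_mem_nonunits B hℓ hB hnd hnum
      have h1 : ℓ ∣ r.num.natAbs := by
        exact Int.natCast_dvd.mp hdn
      have h2 : ℓ ∣ Nat.gcd r.num.natAbs r.den := Nat.dvd_gcd h1 ⟨c, hc⟩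
      have h3 : Nat.gcd r.num.natAbs r.den = 1 := r.reduced
      rw [h3] at h2
      exact hℓ.one_lt.ne' (Nat.dvd_one.mp h2)
    · exact ratCast_mem_of_den B hℓ hB r
  obtain ⟨ρ, -, hρ⟩ := exists_smul_eq_of_inter_eq (F := ⊥) hℓ hA hA' (by
    intro x hx
    obtain ⟨r, rfl⟩ := IntermediateField.mem_bot.mp hx
    rw [key A hA, key A' hA'])
  exact ⟨ρ, hρ⟩

theorem apply_mem_nonunits_smul_iff (ρ : G) (A : ValuationSubring Qb) (x : Qb) :
    ρ x ∈ (ρ • A).nonunits ↔ x ∈ A.nonunits := by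
  have key : ∀ y : Qb, ρ y ∈ ρ • A ↔ y ∈ A := by
    intro y
    rw [ValuationSubring.mem_pointwise_smul_iff_inv_smul_mem]
    have : ρ⁻¹ • ρ y = y := by
      show ρ⁻¹ (ρ y) = y
      exact ρ.symm_apply_apply y
    rw [this]
  rw [ValuationSubring.mem_nonunits_iff_or, ValuationSubring.mem_nonunits_iff_or, ← map_inv₀, key]
  simp

theorem isIntegral_Rl_apply (ρ : G) {x : Qb} (hx : IsIntegral (Rl ℓ) x) :
    IsIntegral (Rl ℓ) (ρ x) := by
  obtain ⟨p, hp, hpx⟩ := hx
  refine ⟨p, hp, ?_⟩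
  have h1 : Polynomial.eval₂ (algebraMap (Rl ℓ) Qb) (ρ x) p
      = ρ (Polynomial.eval₂ (algebraMap (Rl ℓ) Qb) x p) := by
    rw [Polynomial.eval₂_eq_sum, Polynomial.eval₂_eq_sum, Polynomial.sum, Polynomial.sum, map_sum]
    apply Finset.sum_congr rfl
    intro i _
    rw [map_mul, map_pow]
    congr 1
    show algebraMap ℚ Qb _ = ρ (algebraMap ℚ Qb _)
    exact (ρ.commutes _).symm
  rw [h1, hpx, map_zero]

end Basic

section Criterion

variable {ℓ : ℕ} {X : Type*}

/-- The subring underlying `Algebra.adjoin Zb S` consists of `Zb`-valued functions. -/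
theorem adjoin_val_mem (S : Set (X → Qb)) (hS : ∀ s ∈ S, ∀ x, IsIntegral (Rl ℓ) (s x))
    {f : X → Qb} (hf : f ∈ Algebra.adjoin (Zb ℓ) S) (x : X) : IsIntegral (Rl ℓ) (f x) := by
  induction hf using Algebra.adjoin_induction with
  | mem s hs => exact hS s hs x
  | algebraMap a => exact a.2
  | add f g _ _ hf hg => exact hf.add hg
  | mul f g _ _ hf hg => exact hf.mul hg

theorem const_mem_adjoin (S : Set (X → Qb)) {a : Qb} (ha : IsIntegral (Rl ℓ) a) :
    (fun _ : X => a) ∈ Algebra.adjoin (Zb ℓ) S :=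
  (Algebra.adjoin (Zb ℓ) S).algebraMap_mem ⟨a, ha⟩

/-- There is a valuation subring of `ℚ̄` over every prime number. -/
theorem exists_valuationSubring_over (hℓ : ℓ.Prime) :
    ∃ A : ValuationSubring Qb, (ℓ : Qb) ∈ A.nonunits := by
  let A₀ : Subring Qb := (algebraMap ℤ Qb).range
  let l₀ : A₀ := ⟨(ℓ : Qb), ⟨(ℓ : ℤ), by simp⟩⟩
  have hI : Ideal.span {l₀} ≠ ⊤ := by
    intro h
    rw [Ideal.span_singleton_eq_top] at h
    obtain ⟨⟨m, n, rfl⟩, hm⟩ := h.exists_right_inv
    have h1 : ((ℓ : ℤ) : Qb) * ((n : ℤ) : Qb) = 1 := by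
      have := congrArg Subtype.val hm
      simpa [l₀] using this
    have h2 : (ℓ : ℤ) * n = 1 := by exact_mod_cast h1
    have h3 : (ℓ : ℤ) ∣ 1 := ⟨n, h2.symm⟩
    have h4 : ℓ ∣ 1 := by exact_mod_cast h3
    exact hℓ.one_lt.ne' (Nat.dvd_one.mp h4)
  obtain ⟨A, -, hA⟩ := Ideal.image_subset_nonunits_valuationSubring _ hI
  refine ⟨A, ?_⟩
  apply hA
  exact ⟨l₀, Ideal.subset_span rfl, rfl⟩

/-- **L05a** at all places, disc form, no equivariance needed. -/
theorem mem_adjoin_of_forall_place [Finite X] (hℓ : ℓ.Prime) (S : Set (X → Qb))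
    (hS : ∀ s ∈ S, ∀ x, IsIntegral (Rl ℓ) (s x))
    (hsep : ∀ x y : X, (∀ s ∈ S, s x = s y) → x = y)
    (b : X → Qb)
    (h : ∀ A : ValuationSubring Qb, (ℓ : Qb) ∈ A.nonunits → ∀ x₀ : X,
      ∃ p ∈ Algebra.adjoin (Zb ℓ) S, ∃ q ∈ Algebra.adjoin (Zb ℓ) S, q x₀ ∉ A.nonunits ∧
        ∀ x, (∀ s ∈ S, s x - s x₀ ∈ A.nonunits) → q x * b x = p x) :
    b ∈ Algebra.adjoin (Zb ℓ) S := by
  have hconst : ∀ a ∈ (Zb ℓ).toSubring, (fun _ : X => a) ∈ (Algebra.adjoin (Zb ℓ) S).toSubring :=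
    fun a ha => const_mem_adjoin S ha
  have hval : ∀ f ∈ (Algebra.adjoin (Zb ℓ) S).toSubring, ∀ x, f x ∈ (Zb ℓ).toSubring :=
    fun f hf x => adjoin_val_mem S hS hf x
  have := mem_of_forall_disc (Zb ℓ).toSubring (Algebra.adjoin (Zb ℓ) S).toSubring hconst hval b
    (by
      intro V hZV x₀
      have hV : ∀ x : Qb, IsIntegral (Rl ℓ) x → x ∈ V := fun x hx => hZV hx
      obtain ⟨A₀, hA₀⟩ := exists_valuationSubring_over hℓ
      rcases eq_top_or_liesOver_of_le hℓ V hV with htop | hVl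
      · -- trivial valuation: the disc is `{x₀}`
        obtain ⟨p, hp, q, hq, hqx, hrel⟩ := h A₀ hA₀ x₀
        refine ⟨p, hp, q, hq, ?_, ?_⟩
        · intro hcon
          apply hqx
          rw [htop] at hcon
          have : q x₀ = 0 := by
            rw [ValuationSubring.mem_nonunits_iff_or] at hcon
            rcases hcon with h0 | h0
            · exact h0
            · exact absurd (ValuationSubring.mem_top _) h0
          rw [this]
          exact A₀.nonunits.zero_mem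
        · intro x hx
          have hxx : x = x₀ := by
            apply hsep
            intro s hs
            have := hx s (Algebra.subset_adjoin hs)
            rw [htop, ValuationSubring.mem_nonunits_iff_or] at this
            rcases this with h0 | h0
            · exact sub_eq_zero.mp h0
            · exact absurd (ValuationSubring.mem_top _) h0
          rw [hxx]
          apply hrel
          intro s _
          rw [sub_self]
          exact A₀.nonunits.zero_mem
      · obtain ⟨p, hp, q, hq, hqx, hrel⟩ := h V hVl x₀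
        exact ⟨p, hp, q, hq, hqx, fun x hx => hrel x (fun s hs => hx s (Algebra.subset_adjoin hs))⟩)
  exact this

/-- transport of a function along `ρ` -/
noncomputable def transport (act : G → X → X) (ρ : G) (f : X → Qb) : X → Qb := fun x => ρ (f (act ρ⁻¹ x))

theorem transport_mem_adjoin (act : G → X → X) (S : Set (X → Qb))
    (heq : ∀ s ∈ S, ∀ (σ : G) (x : X), s (act σ x) = σ (s x)) (ρ : G)
    {f : X → Qb} (hf : f ∈ Algebra.adjoin (Zb ℓ) S) :
    transport act ρ f ∈ Algebra.adjoin (Zb ℓ) S := by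
  induction hf using Algebra.adjoin_induction with
  | mem s hs =>
    have : transport act ρ s = s := by
      funext x
      simp only [transport]
      rw [heq s hs ρ⁻¹ x]
      show ρ (ρ⁻¹ (s x)) = s x
      exact ρ.apply_symm_apply (s x)
    rw [this]
    exact Algebra.subset_adjoin hs
  | algebraMap a =>
    have : transport act ρ (algebraMap (Zb ℓ) (X → Qb) a) = fun _ => ρ (a : Qb) := rfl
    rw [this]
    exact const_mem_adjoin S (isIntegral_Rl_apply ρ a.2)
  | add f g _ _ hf hg =>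
    have : transport act ρ (f + g) = transport act ρ f + transport act ρ g := by
      funext x
      simp [transport]
    rw [this]
    exact add_mem hf hg
  | mul f g _ _ hf hg =>
    have : transport act ρ (f * g) = transport act ρ f * transport act ρ g := by
      funext x
      simp [transport]
    rw [this]
    exact mul_mem hf hg

/-- **L05a + L05c**: the local criterion at ONE place over `ℓ`, disc form. -/
theorem mem_adjoin_of_local [Finite X] (hℓ : ℓ.Prime) (act : G → X → X) (S : Set (X → Qb))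
    (hS : ∀ s ∈ S, ∀ x, IsIntegral (Rl ℓ) (s x))
    (heq : ∀ s ∈ S, ∀ (σ : G) (x : X), s (act σ x) = σ (s x))
    (hsep : ∀ x y : X, (∀ s ∈ S, s x = s y) → x = y)
    (b : X → Qb) (hb : ∀ (σ : G) (x : X), b (act σ x) = σ (b x))
    (A₀ : ValuationSubring Qb) (hA₀ : (ℓ : Qb) ∈ A₀.nonunits)
    (h : ∀ x₀ : X, ∃ p ∈ Algebra.adjoin (Zb ℓ) S, ∃ q ∈ Algebra.adjoin (Zb ℓ) S,
      q x₀ ∉ A₀.nonunits ∧ ∀ x, (∀ s ∈ S, s x - s x₀ ∈ A₀.nonunits) → q x * b x = p x) :
    b ∈ Algebra.adjoin (Zb ℓ) S := by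
  -- `act` is an action up to the separation property
  have hact : ∀ (ρ : G) (x : X), act ρ (act ρ⁻¹ x) = x := by
    intro ρ x
    apply hsep
    intro s hs
    rw [heq s hs, heq s hs]
    show ρ (ρ⁻¹ (s x)) = s x
    exact ρ.apply_symm_apply (s x)
  apply mem_adjoin_of_forall_place hℓ S hS hsep b
  intro A hA x₀
  obtain ⟨ρ, hρ⟩ := exists_smul_eq hℓ A A₀ hA hA₀
  obtain ⟨p, hp, q, hq, hqx, hrel⟩ := h (act ρ⁻¹ x₀)
  refine ⟨transport act ρ p, transport_mem_adjoin act S heq ρ hp,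
    transport act ρ q, transport_mem_adjoin act S heq ρ hq, ?_, ?_⟩
  · show ρ (q (act ρ⁻¹ x₀)) ∉ A.nonunits
    rw [← hρ, apply_mem_nonunits_smul_iff]
    exact hqx
  · intro x hx
    show ρ (q (act ρ⁻¹ x)) * b x = ρ (p (act ρ⁻¹ x))
    have hbx : b x = ρ (b (act ρ⁻¹ x)) := by
      rw [hb ρ⁻¹ x]
      show b x = ρ (ρ⁻¹ (b x))
      exact (ρ.apply_symm_apply (b x)).symm
    rw [hbx, ← map_mul]
    congr 1
    apply hrel
    intro s hs
    rw [heq s hs, heq s hs, ← map_sub]
    have := hx s hs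
    rw [← hρ] at this
    have h2 : s x - s x₀ = ρ (ρ⁻¹ (s x - s x₀)) := (ρ.apply_symm_apply _).symm
    rw [h2, apply_mem_nonunits_smul_iff] at this
    exact this

/-- **L05b**: a function in `B` whose values are units of `Zb` is a unit of `B`. -/
theorem inv_mem_adjoin [Finite X] (S : Set (X → Qb))
    (hS : ∀ s ∈ S, ∀ x, IsIntegral (Rl ℓ) (s x)) (q : X → Qb)
    (hq : q ∈ Algebra.adjoin (Zb ℓ) S)
    (hunit : ∀ x, q x ≠ 0 ∧ IsIntegral (Rl ℓ) (q x)⁻¹) :
    (fun x => (q x)⁻¹) ∈ Algebra.adjoin (Zb ℓ) S := by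
  have hconst : ∀ a ∈ (Zb ℓ).toSubring, (fun _ : X => a) ∈ (Algebra.adjoin (Zb ℓ) S).toSubring :=
    fun a ha => const_mem_adjoin S ha
  have hval : ∀ f ∈ (Algebra.adjoin (Zb ℓ) S).toSubring, ∀ x, f x ∈ (Zb ℓ).toSubring :=
    fun f hf x => adjoin_val_mem S hS hf x
  have := inv_mem_of_forall_not_mem_nonunits (Zb ℓ).toSubring
    (Algebra.adjoin (Zb ℓ) S).toSubring hconst hval q hq (by
      intro V hZV x
      have hinv : (q x)⁻¹ ∈ V := hZV (hunit x).2
      intro hcon
      rw [ValuationSubring.mem_nonunits_iff_or] at hcon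
      rcases hcon with h0 | h0
      · exact (hunit x).1 h0
      · exact h0 hinv)
  exact this

end Criterion

end Fermat.Agent.S19.H255
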