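import Fermat.Agent.S19.Defs
import Fermat.Agent.S19.H255.Local

/-!
# Cell A3 / S19, work package L05 (helper255): the local criterion in `OrderDatum` shape

`Fermat/Agent/S19/Defs.lean` (frozen interface, helper15) asks, in the field `add_mem` of
`OrderDatum ℓ M act`, for

    (fun p : M × M => f (p.1 + p.2)) ∈ Algebra.adjoin (Zb ℓ) (coordFunctions gens).

This file proves that field from LOCAL data at ONE valuation subring `A₀` of `ℚ̄` over `ℓ`:

* `add_mem_of_local`: for every pair `(m₀, m₀')` there are `P, Q` in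
  `B = Algebra.adjoin (Zb ℓ) (coordFunctions gens)` with `Q (m₀, m₀')` a unit at `A₀` and
  `Q (m, m') * f (m + m') = P (m, m')` for all `(m, m')` in the residue disc of `(m₀, m₀')`
  (i.e. `g m ≡ g m₀` and `g m' ≡ g m₀'` modulo the maximal ideal of `A₀`, for all `g ∈ gens`).
* `orderDatum_of_local`: the resulting `OrderDatum`.
* `inv_mem_adjoin_coordFunctions`: a unit-valued element of `B` is a unit of `B`.
* `orderDatum_tors_of_local`: the same for `Tors N ℓ k` with `torsAct N ℓ k`.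

All proofs complete.
-/

set_option autoImplicit false

namespace Fermat.Agent.S19.H255

section AddMem

variable {ℓ : ℕ} {M : Type}

/-- componentwise action on pairs -/
def actPair (act : Fermat.Agent.S19.GalQ → M → M) (σ : Fermat.Agent.S19.GalQ) (p : M × M) :
    M × M := (act σ p.1, act σ p.2)

theorem coordFunctions_integral (gens : Set (M → Fermat.Agent.S19.Qb))
    (integral : ∀ f ∈ gens, ∀ m : M, IsIntegral (Fermat.Agent.S19.Rl ℓ) (f m)) :
    ∀ s ∈ Fermat.Agent.S19.coordFunctions gens, ∀ x,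
      IsIntegral (Fermat.Agent.S19.Rl ℓ) (s x) := by
  rintro s (⟨h, hh, rfl⟩ | ⟨h, hh, rfl⟩) x
  · exact integral h hh x.1
  · exact integral h hh x.2

theorem coordFunctions_equivariant (act : Fermat.Agent.S19.GalQ → M → M)
    (gens : Set (M → Fermat.Agent.S19.Qb))
    (equivariant : ∀ f ∈ gens, ∀ (σ : Fermat.Agent.S19.GalQ) (m : M), f (act σ m) = σ (f m)) :
    ∀ s ∈ Fermat.Agent.S19.coordFunctions gens, ∀ (σ : Fermat.Agent.S19.GalQ) (x : M × M),
      s (actPair act σ x) = σ (s x) := by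
  rintro s (⟨h, hh, rfl⟩ | ⟨h, hh, rfl⟩) σ x
  · exact equivariant h hh σ x.1
  · exact equivariant h hh σ x.2

theorem coordFunctions_separates (gens : Set (M → Fermat.Agent.S19.Qb))
    (separates : ∀ m m' : M, (∀ f ∈ gens, f m = f m') → m = m') :
    ∀ x y : M × M, (∀ s ∈ Fermat.Agent.S19.coordFunctions gens, s x = s y) → x = y := by
  intro x y hxy
  refine Prod.ext ?_ ?_
  · apply separates
    intro f hf
    exact hxy (fun p => f p.1) (Or.inl ⟨f, hf, rfl⟩)
  · apply separates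
    intro f hf
    exact hxy (fun p => f p.2) (Or.inr ⟨f, hf, rfl⟩)

/-- **L05b in `OrderDatum` shape**: a unit-valued element of `B` is a unit of `B`. -/
theorem inv_mem_adjoin_coordFunctions [Finite M] (gens : Set (M → Fermat.Agent.S19.Qb))
    (integral : ∀ f ∈ gens, ∀ m : M, IsIntegral (Fermat.Agent.S19.Rl ℓ) (f m))
    (Q : M × M → Fermat.Agent.S19.Qb)
    (hQ : Q ∈ Algebra.adjoin (Fermat.Agent.S19.Zb ℓ) (Fermat.Agent.S19.coordFunctions gens))
    (hunit : ∀ x, Q x ≠ 0 ∧ IsIntegral (Fermat.Agent.S19.Rl ℓ) (Q x)⁻¹) :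
    (fun x => (Q x)⁻¹) ∈
      Algebra.adjoin (Fermat.Agent.S19.Zb ℓ) (Fermat.Agent.S19.coordFunctions gens) :=
  inv_mem_adjoin (Fermat.Agent.S19.coordFunctions gens) (coordFunctions_integral gens integral)
    Q hQ hunit

variable [AddCommGroup M]

/-- **L05 in `OrderDatum` shape**: the field `add_mem` from local data at ONE valuation subring
of `ℚ̄` over `ℓ`. -/
theorem add_mem_of_local [Finite M] (hℓ : ℓ.Prime) (act : Fermat.Agent.S19.GalQ → M → M)
    (hadd : ∀ (σ : Fermat.Agent.S19.GalQ) (m m' : M), act σ (m + m') = act σ m + act σ m')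
    (gens : Set (M → Fermat.Agent.S19.Qb))
    (equivariant : ∀ f ∈ gens, ∀ (σ : Fermat.Agent.S19.GalQ) (m : M), f (act σ m) = σ (f m))
    (integral : ∀ f ∈ gens, ∀ m : M, IsIntegral (Fermat.Agent.S19.Rl ℓ) (f m))
    (separates : ∀ m m' : M, (∀ f ∈ gens, f m = f m') → m = m')
    (A₀ : ValuationSubring Fermat.Agent.S19.Qb) (hA₀ : (ℓ : Fermat.Agent.S19.Qb) ∈ A₀.nonunits)
    (f : M → Fermat.Agent.S19.Qb)
    (hf : ∀ (σ : Fermat.Agent.S19.GalQ) (m : M), f (act σ m) = σ (f m))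
    (h : ∀ m₀ m₀' : M,
      ∃ P ∈ Algebra.adjoin (Fermat.Agent.S19.Zb ℓ) (Fermat.Agent.S19.coordFunctions gens),
      ∃ Q ∈ Algebra.adjoin (Fermat.Agent.S19.Zb ℓ) (Fermat.Agent.S19.coordFunctions gens),
        Q (m₀, m₀') ∉ A₀.nonunits ∧
        ∀ m m' : M, (∀ g ∈ gens, g m - g m₀ ∈ A₀.nonunits) →
          (∀ g ∈ gens, g m' - g m₀' ∈ A₀.nonunits) → Q (m, m') * f (m + m') = P (m, m')) :
    (fun p : M × M => f (p.1 + p.2)) ∈
      Algebra.adjoin (Fermat.Agent.S19.Zb ℓ) (Fermat.Agent.S19.coordFunctions gens) := by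
  refine mem_adjoin_of_local hℓ (actPair act) (Fermat.Agent.S19.coordFunctions gens)
    (coordFunctions_integral gens integral) (coordFunctions_equivariant act gens equivariant)
    (coordFunctions_separates gens separates) _ ?_ A₀ hA₀ ?_
  · intro σ x
    show f (act σ x.1 + act σ x.2) = σ (f (x.1 + x.2))
    rw [← hadd, hf]
  · intro x₀
    obtain ⟨P, hP, Q, hQ, hQ0, hrel⟩ := h x₀.1 x₀.2
    refine ⟨P, hP, Q, hQ, hQ0, ?_⟩
    intro x hx
    refine hrel x.1 x.2 ?_ ?_
    · intro g hg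
      exact hx (fun p => g p.1) (Or.inl ⟨g, hg, rfl⟩)
    · intro g hg
      exact hx (fun p => g p.2) (Or.inr ⟨g, hg, rfl⟩)

/-- The `OrderDatum` obtained from local data at one valuation subring over `ℓ`. -/
noncomputable def orderDatum_of_local [Finite M] (hℓ : ℓ.Prime)
    (act : Fermat.Agent.S19.GalQ → M → M)
    (hadd : ∀ (σ : Fermat.Agent.S19.GalQ) (m m' : M), act σ (m + m') = act σ m + act σ m')
    (gens : Set (M → Fermat.Agent.S19.Qb))
    (equivariant : ∀ f ∈ gens, ∀ (σ : Fermat.Agent.S19.GalQ) (m : M), f (act σ m) = σ (f m))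
    (integral : ∀ f ∈ gens, ∀ m : M, IsIntegral (Fermat.Agent.S19.Rl ℓ) (f m))
    (separates : ∀ m m' : M, (∀ f ∈ gens, f m = f m') → m = m')
    (A₀ : ValuationSubring Fermat.Agent.S19.Qb) (hA₀ : (ℓ : Fermat.Agent.S19.Qb) ∈ A₀.nonunits)
    (h : ∀ f ∈ gens, ∀ m₀ m₀' : M,
      ∃ P ∈ Algebra.adjoin (Fermat.Agent.S19.Zb ℓ) (Fermat.Agent.S19.coordFunctions gens),
      ∃ Q ∈ Algebra.adjoin (Fermat.Agent.S19.Zb ℓ) (Fermat.Agent.S19.coordFunctions gens),
        Q (m₀, m₀') ∉ A₀.nonunits ∧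
        ∀ m m' : M, (∀ g ∈ gens, g m - g m₀ ∈ A₀.nonunits) →
          (∀ g ∈ gens, g m' - g m₀' ∈ A₀.nonunits) → Q (m, m') * f (m + m') = P (m, m')) :
    Fermat.Agent.S19.OrderDatum ℓ M act where
  gens := gens
  act_add := hadd
  equivariant := equivariant
  integral := integral
  separates := separates
  add_mem := fun f hf => add_mem_of_local hℓ act hadd gens equivariant integral separates A₀ hA₀ f
    (equivariant f hf) (h f hf)

end AddMem

/-- The local criterion for the torsion of `J₀(N)`: an `OrderDatum` from local data at one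
valuation subring over `ℓ`. -/
noncomputable def orderDatum_tors_of_local (N ℓ k : ℕ) (hℓ : ℓ.Prime)
    [Finite (Fermat.Agent.S19.Tors N ℓ k)]
    (gens : Set (Fermat.Agent.S19.Tors N ℓ k → Fermat.Agent.S19.Qb))
    (equivariant : ∀ f ∈ gens, ∀ (σ : Fermat.Agent.S19.GalQ) (m : Fermat.Agent.S19.Tors N ℓ k),
      f (Fermat.Agent.S19.torsAct N ℓ k σ m) = σ (f m))
    (integral : ∀ f ∈ gens, ∀ m, IsIntegral (Fermat.Agent.S19.Rl ℓ) (f m))
    (separates : ∀ m m', (∀ f ∈ gens, f m = f m') → m = m')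
    (A₀ : ValuationSubring Fermat.Agent.S19.Qb) (hA₀ : (ℓ : Fermat.Agent.S19.Qb) ∈ A₀.nonunits)
    (h : ∀ f ∈ gens, ∀ m₀ m₀' : Fermat.Agent.S19.Tors N ℓ k,
      ∃ P ∈ Algebra.adjoin (Fermat.Agent.S19.Zb ℓ) (Fermat.Agent.S19.coordFunctions gens),
      ∃ Q ∈ Algebra.adjoin (Fermat.Agent.S19.Zb ℓ) (Fermat.Agent.S19.coordFunctions gens),
        Q (m₀, m₀') ∉ A₀.nonunits ∧
        ∀ m m', (∀ g ∈ gens, g m - g m₀ ∈ A₀.nonunits) →
          (∀ g ∈ gens, g m' - g m₀' ∈ A₀.nonunits) → Q (m, m') * f (m + m') = P (m, m')) :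
    Fermat.Agent.S19.OrderDatum ℓ (Fermat.Agent.S19.Tors N ℓ k)
      (Fermat.Agent.S19.torsAct N ℓ k) :=
  orderDatum_of_local hℓ _ (Fermat.Agent.S19.torsAct_add N ℓ k) gens equivariant integral
    separates A₀ hA₀ h

end Fermat.Agent.S19.H255
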