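import Fermat.Agent.Lib.RR.H259.Mult
import Fermat.Agent.Lib.RR.H638.NonSpecial

/-!
# Cell A3 / S19, piece D5 = NSP (helper255): the special fibre — corollaries of Riemann–Roch

All statements are for a function field `F/K` with `[FF1 K F]` (shared library `Lib/RR`), genus
`g = genusFF K F`; `K` infinite where generic choices are made (e.g. `K` algebraically closed).
In cell A3 they are applied to the special fibre `Fk / kbar` (and to `F / Qbar`).

* `isRiemannGenus_genusFF`      : `genusFF` is the genus of Riemann's theorem.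
* `exists_reduced_nonspecial`   : **D5(a)** for every finite set `S` of places there are `g` DISTINCT
                                  places `Q₁, …, Q_g ∉ S` with `ℓ(Q₁ + ⋯ + Q_g) = 1`.
* `exists_ne_zero_mem_L`        : **D5(b)** `deg D ≥ g ⇒ L(D) ≠ 0` (every class of degree `≥ g` is
                                  effective); `exists_effective`: the effective divisor.
* `eq_smul_of_ell_eq_one`, `ord_eq_of_ell_eq_one` : if `ℓ(D) = 1` the effective divisor of the
                                  class of `D` is unique.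
* `ell_sub_eq_degree`           : `E ≥ 0`, `deg (B - E) > 2g - 2 ⇒ ℓ(B) - ℓ(B - E) = deg E`
                                  (jets at `E` are independent conditions on `L(B)`).
* `exists_bpfPencil_avoiding`   : **D5(c)** `deg D ≥ 2g ⇒` there are `s₁, s₂ ∈ L(D)` whose residual
                                  divisors `div sᵢ + D` are disjoint and avoid a given finite set.
* `exists_of_cross_eq`          : **D5(d)** for such a pencil, `b₁ s₂ = b₂ s₁` with `bᵢ ∈ L(E)`
                                  forces `(b₁, b₂) = h • (s₁, s₂)` with `h ∈ L(E - D)`.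
* `cross_ker_line`              : hence, if `ℓ(E - D) = 1` (non-special), the solutions of the
                                  cross system form a line spanned by `(h₀ s₁, h₀ s₂)`.

All proofs complete.
-/

set_option autoImplicit false
set_option linter.style.haveILetI false

noncomputable section

open AlgebraicCurve

namespace Fermat.Agent.S19.H255

open Fermat.Agent.Lib.RR

variable {K F : Type*} [Field K] [Field F] [Algebra K F]

/-- `genusFF` is the genus of Riemann's theorem. -/
theorem isRiemannGenus_genusFF [FF1 K F] : H638.IsRiemannGenus K F (genusFF K F) := by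
  rw [genusFF_eq_genusR]
  exact exists_degree_bound (K := K) (F := F)

/-- **D5(a)**: reduced non-special effective divisors of degree `g` avoiding a finite set. -/
theorem exists_reduced_nonspecial [FF1 K F] [Infinite K] (S : Finset (Place K F)) :
    ∃ T : Finset (Place K F), T.card = genusFF K F ∧ Disjoint T S ∧ ell (H638.divT T) = 1 := by
  haveI : Infinite (Place K F) := H638.infinite_place
  exact H638.exists_nonspecial isRiemannGenus_genusFF S (genusFF K F) le_rfl

/-- **D5(b)**: `L(D) ≠ 0` as soon as `deg D ≥ g`. -/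
theorem exists_ne_zero_mem_L [FF1 K F] {D : Divisor K F}
    (hD : (genusFF K F : ℤ) ≤ Divisor.degree D) :
    ∃ f : F, f ≠ 0 ∧ f ∈ riemannRochSpace D := by
  have h1 := riemann_inequality_genusFF (K := K) (F := F) D
  have hpos : 0 < Module.finrank K (riemannRochSpace D) := by
    have h2 : Module.finrank K (riemannRochSpace D) = ell D := rfl
    have : (0 : ℤ) < (ell D : ℤ) := by omega
    rw [h2]
    exact_mod_cast this
  obtain ⟨x, hx⟩ := Module.finrank_pos_iff_exists_ne_zero.mp hpos
  exact ⟨x, fun h => hx (Subtype.ext h), x.2⟩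

/-- **D5(b)**, divisor form: every divisor of degree `≥ g` is linearly equivalent to an
effective one. -/
theorem exists_effective [FF1 K F] {D : Divisor K F}
    (hD : (genusFF K F : ℤ) ≤ Divisor.degree D) :
    ∃ (f : F) (hf : f ≠ 0), 0 ≤ D + divOf (K := K) f hf := by
  obtain ⟨f, hf, hfD⟩ := exists_ne_zero_mem_L hD
  refine ⟨f, hf, ?_⟩
  rw [Finsupp.le_def]
  intro v
  have := (mem_L_iff.mp hfD v).resolve_left hf
  simp only [Finsupp.coe_zero, Pi.zero_apply, Finsupp.coe_add, Pi.add_apply, divOf_apply]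
  omega

/-- If `ℓ(D) = 1`, any two nonzero elements of `L(D)` are proportional. -/
theorem eq_smul_of_ell_eq_one [FF1 K F] {D : Divisor K F} (hD : ell D = 1) {f g : F}
    (hf : f ≠ 0) (hfD : f ∈ riemannRochSpace D) (hgD : g ∈ riemannRochSpace D) :
    ∃ c : K, g = algebraMap K F c * f := by
  have h1 : Module.finrank K (riemannRochSpace D) = 1 := hD
  have hf' : (⟨f, hfD⟩ : riemannRochSpace D) ≠ 0 := fun h => hf (congrArg Subtype.val h)
  obtain ⟨c, hc⟩ := (finrank_eq_one_iff_of_nonzero' (⟨f, hfD⟩ : riemannRochSpace D) hf').mp h1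
    ⟨g, hgD⟩
  refine ⟨c, ?_⟩
  have := congrArg Subtype.val hc
  simp only [Submodule.coe_smul] at this
  rw [← this, Algebra.smul_def]

/-- If `ℓ(D) = 1`, the effective divisor in the class of `D` is unique: any two nonzero elements
of `L(D)` have the same divisor. -/
theorem ord_eq_of_ell_eq_one [FF1 K F] {D : Divisor K F} (hD : ell D = 1) {f g : F}
    (hf : f ≠ 0) (hg : g ≠ 0) (hfD : f ∈ riemannRochSpace D) (hgD : g ∈ riemannRochSpace D)
    (v : Place K F) : v.ord g = v.ord f := by
  obtain ⟨c, rfl⟩ := eq_smul_of_ell_eq_one hD hf hfD hgD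
  have hc : algebraMap K F c ≠ 0 := fun h => hg (by rw [h, zero_mul])
  rw [v.ord_mul hc hf, ord_algebraMap, zero_add]

/-- Independence of conditions: for `E ≥ 0` and `deg (B - E) > 2g - 2`,
`ℓ(B) - ℓ(B - E) = deg E`. -/
theorem ell_sub_eq_degree [FF1 K F] {B E : Divisor K F} (hE : 0 ≤ E)
    (h : 2 * (genusFF K F : ℤ) - 2 < Divisor.degree (B - E)) :
    (ell B : ℤ) - ell (B - E) = Divisor.degree E := by
  have h1 := ell_eq_of_degree_gt h
  have hE' : 0 ≤ Divisor.degree E := degree_nonneg hE
  have h2 : 2 * (genusFF K F : ℤ) - 2 < Divisor.degree B := by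
    rw [map_sub] at h
    omega
  have h3 := ell_eq_of_degree_gt h2
  rw [map_sub] at h1
  omega

/-- **D5(c)**: for `deg D ≥ 2g` there is a base-point-free pencil `s₁, s₂ ∈ L(D)` (residual
divisors `div sᵢ + D` disjoint), both of whose members avoid a given finite set `S` of places
(their residual divisors do not meet `S`). -/
theorem exists_bpfPencil_avoiding [FF1 K F] [Infinite K] {D : Divisor K F}
    (hD : 2 * (genusFF K F : ℤ) ≤ Divisor.degree D) (S : Finset (Place K F)) :
    ∃ s₁ s₂ : F, H259.IsBpfPencil D s₁ s₂ ∧ s₂ ≠ 0 ∧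
      (∀ v ∈ S, v.ord s₁ = - D v) ∧ (∀ v ∈ S, v.ord s₂ = - D v) := by
  classical
  have hell : (ell D : ℤ) = Divisor.degree D + 1 - (genusFF K F : ℤ) :=
    ell_eq_of_degree_gt (by omega)
  have hpos : 0 < Module.finrank K (riemannRochSpace D) := by
    have : Module.finrank K (riemannRochSpace D) = ell D := rfl
    omega
  haveI : Nontrivial (riemannRochSpace D) := Module.finrank_pos_iff.mp hpos
  let p : Place K F → Subspace K (riemannRochSpace D) := fun v =>
    (riemannRochSpace (D - prim v)).comap (riemannRochSpace D).subtype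
  have hp : ∀ v, p v ≠ ⊤ := by
    intro v htop
    have hle : riemannRochSpace D ≤ riemannRochSpace (D - prim v) := by
      intro f hf
      have : (⟨f, hf⟩ : riemannRochSpace D) ∈ p v := by rw [htop]; trivial
      exact this
    have h1 : ell D ≤ ell (D - prim v) := Submodule.finrank_mono hle
    have h2 : (ell (D - prim v) : ℤ) = Divisor.degree D - 1 + 1 - (genusFF K F : ℤ) := by
      have := ell_eq_of_degree_gt (D := D - prim v)
        (by rw [map_sub, degree_prim v (deg_eq_one v)]; omega)
      rw [map_sub, degree_prim v (deg_eq_one v)] at this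
      exact this
    omega
  -- an element outside finitely many of the hyperplanes `p v` and nonzero
  have key : ∀ S' : Finset (Place K F), ∃ x : riemannRochSpace D, x ≠ 0 ∧ ∀ v ∈ S', x ∉ p v := by
    intro S'
    have hnot : (⊤ : Subspace K (riemannRochSpace D)) ∉ insert ⊥ (S'.image p) := by
      intro hmem
      rcases Finset.mem_insert.mp hmem with h | h
      · exact top_ne_bot h
      · obtain ⟨v, -, hv⟩ := Finset.mem_image.mp h
        exact hp v hv
    have hne := Subspace.biUnion_ne_univ_of_top_notMem hnot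
    obtain ⟨x, hx⟩ : ∃ x : riemannRochSpace D,
        x ∉ ⋃ q ∈ insert ⊥ (S'.image p), (q : Set (riemannRochSpace D)) := by
      by_contra hcon
      simp only [not_exists, not_not] at hcon
      exact hne (Set.eq_univ_of_forall hcon)
    refine ⟨x, ?_, fun v hv hm => ?_⟩
    · intro h0
      apply hx
      refine Set.mem_biUnion (Finset.mem_insert_self _ _) ?_
      rw [h0]
      exact Submodule.zero_mem _
    · exact hx (Set.mem_biUnion (Finset.mem_insert_of_mem (Finset.mem_image_of_mem p hv)) hm)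
  -- an element of `L(D)` outside `p v` has order exactly `-D v` at `v`
  have hord : ∀ (x : riemannRochSpace D) (v : Place K F), x ≠ 0 → x ∉ p v →
      v.ord (x : F) = - D v := by
    intro x v hx0 hnm
    have hx0' : (x : F) ≠ 0 := fun h => hx0 (Subtype.ext h)
    have hmem := x.2
    rw [mem_L_iff] at hmem
    have hnm' : ¬ ((x : F) ∈ riemannRochSpace (D - prim v)) := hnm
    rw [mem_L_iff] at hnm'
    simp only [not_forall, not_or, not_le] at hnm'
    obtain ⟨w, hw0, hw⟩ := hnm'
    have hwv : w = v := by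
      by_contra hne'
      have h3 := (hmem w).resolve_left hw0
      simp only [Finsupp.coe_sub, Pi.sub_apply, prim_apply_of_ne hne'] at hw
      omega
    subst hwv
    have h3 := (hmem w).resolve_left hw0
    simp only [Finsupp.coe_sub, Pi.sub_apply, prim_apply_self] at hw
    omega
  obtain ⟨s₁, hs₁0, hs₁⟩ := key S
  have hs₁F : (s₁ : F) ≠ 0 := fun h => hs₁0 (Subtype.ext h)
  let S₁ : Finset (Place K F) := (divOf (K := K) (s₁ : F) hs₁F + D).support
  have hS₁ : ∀ v ∉ S₁, v.ord (s₁ : F) = - D v := by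
    intro v hv
    rw [Finsupp.notMem_support_iff] at hv
    simp only [Finsupp.coe_add, Pi.add_apply, divOf_apply] at hv
    omega
  obtain ⟨s₂, hs₂0, hs₂⟩ := key (S ∪ S₁)
  have hs₂F : (s₂ : F) ≠ 0 := fun h => hs₂0 (Subtype.ext h)
  refine ⟨s₁, s₂, ⟨s₁.2, s₂.2, hs₁F, fun v => ?_⟩, hs₂F, ?_, ?_⟩
  · by_cases hv : v ∈ S₁
    · right
      exact ⟨hs₂F, hord s₂ v hs₂0 (hs₂ v (Finset.mem_union_right _ hv))⟩
    · left
      exact hS₁ v hv
  · intro v hv
    exact hord s₁ v hs₁0 (hs₁ v hv)
  · intro v hv
    exact hord s₂ v hs₂0 (hs₂ v (Finset.mem_union_left _ hv))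

/-- **D5(d)**: the cross system of a base-point-free pencil.  If `s₁, s₂` is a base-point-free
pencil of `L(D)` and `b₁, b₂ ∈ L(E)` satisfy `b₁ s₂ = b₂ s₁`, then `(b₁, b₂) = h • (s₁, s₂)` with
`h ∈ L(E - D)`. -/
theorem exists_of_cross_eq {D E : Divisor K F} {s₁ s₂ b₁ b₂ : F} (h : H259.IsBpfPencil D s₁ s₂)
    (hb₁ : b₁ ∈ riemannRochSpace E) (hb₂ : b₂ ∈ riemannRochSpace E)
    (hcross : b₁ * s₂ = b₂ * s₁) :
    ∃ c ∈ riemannRochSpace (E - D), b₁ = c * s₁ ∧ b₂ = c * s₂ := by
  have hs₁ := h.ne_zero
  have e1 : b₁ = b₁ / s₁ * s₁ := by field_simp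
  have e2 : b₂ = b₁ / s₁ * s₂ := by
    have : b₂ * s₁ = b₁ / s₁ * s₂ * s₁ := by
      rw [← hcross]
      field_simp
    exact mul_right_cancel₀ hs₁ this
  refine ⟨b₁ / s₁, ?_, e1, e2⟩
  rw [mem_L_iff]
  intro v
  rcases eq_or_ne (b₁ / s₁) 0 with h0 | h0
  · exact Or.inl h0
  right
  rw [mem_L_iff] at hb₁ hb₂
  simp only [Finsupp.coe_sub, Pi.sub_apply]
  rcases h.bpf v with hv | ⟨hs₂, hv⟩
  · have hb₁0 : b₁ ≠ 0 := by
      intro hb
      apply h0
      rw [hb, zero_div]
    have h3 := (hb₁ v).resolve_left hb₁0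
    rw [e1, v.ord_mul h0 hs₁, hv] at h3
    omega
  · have hb₂0 : b₂ ≠ 0 := by
      rw [e2]
      exact mul_ne_zero h0 hs₂
    have h3 := (hb₂ v).resolve_left hb₂0
    rw [e2, v.ord_mul h0 hs₂, hv] at h3
    omega

/-- Converse of `exists_of_cross_eq`: multiples of the pencil by `L(E - D)` solve the cross
system and lie in `L(E)`. -/
theorem cross_of_mem {D E : Divisor K F} {s₁ s₂ c : F} (h : H259.IsBpfPencil D s₁ s₂)
    (hc : c ∈ riemannRochSpace (E - D)) :
    c * s₁ ∈ riemannRochSpace E ∧ c * s₂ ∈ riemannRochSpace E ∧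
      (c * s₁) * s₂ = (c * s₂) * s₁ := by
  have hsub : E - D + D = E := sub_add_cancel E D
  refine ⟨?_, ?_, by ring⟩
  · have := H259.mul_le_L (E - D) D (Submodule.mul_mem_mul hc h.mem₁)
    rwa [hsub] at this
  · have := H259.mul_le_L (E - D) D (Submodule.mul_mem_mul hc h.mem₂)
    rwa [hsub] at this

/-- **D5(d), line form**: if moreover `ℓ(E - D) = 1` and `h₀ ≠ 0` spans `L(E - D)`, every solution
of the cross system is a `K`-multiple of `(h₀ s₁, h₀ s₂)`. -/
theorem cross_ker_line [FF1 K F] {D E : Divisor K F} {s₁ s₂ b₁ b₂ h₀ : F}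
    (h : H259.IsBpfPencil D s₁ s₂) (hell : ell (E - D) = 1)
    (hh₀ : h₀ ≠ 0) (hh₀E : h₀ ∈ riemannRochSpace (E - D))
    (hb₁ : b₁ ∈ riemannRochSpace E) (hb₂ : b₂ ∈ riemannRochSpace E)
    (hcross : b₁ * s₂ = b₂ * s₁) :
    ∃ a : K, b₁ = algebraMap K F a * (h₀ * s₁) ∧ b₂ = algebraMap K F a * (h₀ * s₂) := by
  obtain ⟨c, hc, e1, e2⟩ := exists_of_cross_eq h hb₁ hb₂ hcross
  obtain ⟨a, ha⟩ := eq_smul_of_ell_eq_one hell hh₀ hh₀E hc
  refine ⟨a, ?_, ?_⟩
  · rw [e1, ha]; ring
  · rw [e2, ha]; ring

end Fermat.Agent.S19.H255
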