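import Mathlib

/-!
# Cell A3 / S19, work package L05 (helper255): the local criterion, abstract form

`K` a field, `Z` a subring of `K`, `X` a finite set, `B` a subring of the ring of functions
`X → K` which contains the constants of `Z` and consists of `Z`-valued functions.

* `mem_of_forall_valuationSubring` (**L05a**): a function `b : X → K` lies in `B` as soon as for
  every valuation subring `V ⊇ Z` of `K` and every point `x₀` there is a "denominator" `q ∈ B`
  which is a unit of `V` at `x₀` and satisfies `q * b ∈ B`  (the conductor of `b` is the unit ideal).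
* `exists_denominator_of_disc`: the relation `q * b = p` is only needed on the residue disc of
  `x₀` (the points which `B` cannot separate from `x₀` modulo the maximal ideal of `V`).
* `mem_of_forall_disc`: the two combined.
* `inv_mem_of_forall_not_mem_nonunits` (**L05b**): an element of `B` all of whose values are units
  at every `V ⊇ Z` is a unit of `B`.

Mathlib only; all proofs complete.
-/

set_option autoImplicit false

namespace Fermat.Agent.S19.H255

variable {K : Type*} [Field K] {X : Type*}

/-- evaluation at a point, as a ring hom from a subring of `Z`-valued functions to `Z`. -/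
def evalHom (Z : Subring K) (B : Subring (X → K)) (hval : ∀ f ∈ B, ∀ x, f x ∈ Z) (x : X) :
    B →+* Z where
  toFun f := ⟨(f : X → K) x, hval f f.2 x⟩
  map_one' := rfl
  map_mul' _ _ := rfl
  map_zero' := rfl
  map_add' _ _ := rfl

theorem evalHom_surjective (Z : Subring K) (B : Subring (X → K))
    (hconst : ∀ a ∈ Z, (fun _ : X => a) ∈ B) (hval : ∀ f ∈ B, ∀ x, f x ∈ Z) (x : X) :
    Function.Surjective (evalHom Z B hval x) := fun a =>
  ⟨⟨fun _ => (a : K), hconst a a.2⟩, Subtype.ext rfl⟩

/-- the conductor of `b` into `B` -/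
def conductor (B : Subring (X → K)) (b : X → K) : Ideal B where
  carrier := {q | (q : X → K) * b ∈ B}
  add_mem' := by
    intro q q' hq hq'
    show ((q + q' : B) : X → K) * b ∈ B
    have : ((q + q' : B) : X → K) * b = (q : X → K) * b + (q' : X → K) * b := by
      push_cast; ring
    rw [this]
    exact B.add_mem hq hq'
  zero_mem' := by
    show ((0 : B) : X → K) * b ∈ B
    simp only [ZeroMemClass.coe_zero, zero_mul]
    exact B.zero_mem
  smul_mem' := by
    intro c q hq
    show ((c • q : B) : X → K) * b ∈ B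
    have : ((c • q : B) : X → K) * b = (c : X → K) * ((q : X → K) * b) := by
      rw [smul_eq_mul]; push_cast; ring
    rw [this]
    exact B.mul_mem c.2 hq

theorem mem_conductor {B : Subring (X → K)} {b : X → K} {q : B} :
    q ∈ conductor B b ↔ (q : X → K) * b ∈ B := Iff.rfl

/-- If every point evaluation maps an ideal `I` of `B` onto the unit ideal, then `I = ⊤`. -/
theorem ideal_eq_top_of_forall_eval [Finite X] (Z : Subring K) (B : Subring (X → K))
    (hconst : ∀ a ∈ Z, (fun _ : X => a) ∈ B) (hval : ∀ f ∈ B, ∀ x, f x ∈ Z) (I : Ideal B)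
    (h : ∀ x, I.map (evalHom Z B hval x) = ⊤) : I = ⊤ := by
  classical
  cases nonempty_fintype X
  have hq : ∀ x : X, ∃ q ∈ I, (q : X → K) x = 1 := by
    intro x
    have h1 : (1 : Z) ∈ I.map (evalHom Z B hval x) := by rw [h x]; trivial
    obtain ⟨q, hq, hq1⟩ :=
      (Ideal.mem_map_iff_of_surjective _ (evalHom_surjective Z B hconst hval x)).mp h1
    exact ⟨q, hq, congrArg Subtype.val hq1⟩
  choose q hqI hq1 using hq
  have hprod : (∏ x : X, (1 - q x) : B) = 0 := by
    apply Subtype.ext
    funext y
    have : ((∏ x : X, (1 - q x) : B) : X → K) y = ∏ x : X, (1 - (q x : X → K) y) := by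
      rw [← Subring.coe_subtype, map_prod]
      simp [Finset.prod_apply]
    rw [this]
    exact Finset.prod_eq_zero (Finset.mem_univ y) (by rw [hq1 y]; simp)
  rw [Ideal.eq_top_iff_one, ← Ideal.Quotient.eq_zero_iff_mem]
  have h2 : Ideal.Quotient.mk I (∏ x : X, (1 - q x)) = 1 := by
    rw [map_prod]
    apply Finset.prod_eq_one
    intro x _
    rw [map_sub, map_one, Ideal.Quotient.eq_zero_iff_mem.mpr (hqI x), sub_zero]
  rw [map_one, ← h2, hprod, map_zero]

/-- **L05a** (conductor criterion). -/
theorem mem_of_forall_valuationSubring [Finite X] (Z : Subring K) (B : Subring (X → K))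
    (hconst : ∀ a ∈ Z, (fun _ : X => a) ∈ B) (hval : ∀ f ∈ B, ∀ x, f x ∈ Z) (b : X → K)
    (h : ∀ V : ValuationSubring K, Z ≤ V.toSubring → ∀ x₀ : X,
      ∃ q ∈ B, q x₀ ∉ V.nonunits ∧ q * b ∈ B) : b ∈ B := by
  have htop : conductor B b = ⊤ := by
    apply ideal_eq_top_of_forall_eval Z B hconst hval
    intro x₀
    by_contra hne
    obtain ⟨V, hZV, hV⟩ := Ideal.image_subset_nonunits_valuationSubring _ hne
    obtain ⟨q, hqB, hqV, hqb⟩ := h V hZV x₀
    apply hqV
    apply hV
    refine ⟨evalHom Z B hval x₀ ⟨q, hqB⟩, ?_, rfl⟩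
    exact Ideal.mem_map_of_mem _ (mem_conductor.mpr hqb)
  have h1 : (1 : B) ∈ conductor B b := by rw [htop]; trivial
  have := mem_conductor.mp h1
  simpa using this

/-- Elements which are not non-units of a valuation subring are closed under finite products. -/
theorem prod_not_mem_nonunits (V : ValuationSubring K) {ι : Type*} (s : Finset ι) (f : ι → K)
    (h : ∀ i ∈ s, f i ∉ V.nonunits) : (∏ i ∈ s, f i) ∉ V.nonunits := by
  classical
  induction s using Finset.induction_on with
  | empty =>
    simp only [Finset.prod_empty, ValuationSubring.mem_nonunits_iff, map_one, lt_self_iff_false,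
      not_false_eq_true]
  | insert a s ha ih =>
    rw [Finset.prod_insert ha]
    have h1 := h a (Finset.mem_insert_self a s)
    have h2 := ih (fun i hi => h i (Finset.mem_insert_of_mem hi))
    rw [ValuationSubring.mem_nonunits_iff, not_lt] at h1 h2 ⊢
    rw [map_mul]
    calc (1 : _) = 1 * 1 := (one_mul 1).symm
      _ ≤ _ := mul_le_mul' h1 h2

/-- Globalisation: a relation `q * b = p` on the residue disc of `x₀` yields a denominator on
all of `X`. -/
theorem exists_denominator_of_disc [Finite X] (Z : Subring K) (B : Subring (X → K))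
    (hconst : ∀ a ∈ Z, (fun _ : X => a) ∈ B) (hval : ∀ f ∈ B, ∀ x, f x ∈ Z) (b : X → K)
    (V : ValuationSubring K) (x₀ : X) (p q : X → K) (hp : p ∈ B) (hq : q ∈ B)
    (hqx : q x₀ ∉ V.nonunits)
    (hrel : ∀ x, (∀ f ∈ B, f x - f x₀ ∈ V.nonunits) → q x * b x = p x) :
    ∃ q' ∈ B, q' x₀ ∉ V.nonunits ∧ q' * b ∈ B := by
  classical
  cases nonempty_fintype X
  -- separating functions for the points outside the disc
  have hsep : ∀ x : X, ∃ f ∈ B, (∀ g ∈ B, g x - g x₀ ∈ V.nonunits) ∨ f x₀ - f x ∉ V.nonunits := by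
    intro x
    by_cases hx : ∀ g ∈ B, g x - g x₀ ∈ V.nonunits
    · exact ⟨0, B.zero_mem, Or.inl hx⟩
    · push Not at hx
      obtain ⟨f, hf, hfx⟩ := hx
      refine ⟨f, hf, Or.inr ?_⟩
      intro hcon
      apply hfx
      have : f x - f x₀ = -(f x₀ - f x) := by ring
      rw [this]
      rw [ValuationSubring.mem_nonunits_iff] at hcon ⊢
      rwa [Valuation.map_neg]
  choose f hfB hf using hsep
  let bad : Finset X := Finset.univ.filter (fun x => ¬ ∀ g ∈ B, g x - g x₀ ∈ V.nonunits)
  let e : X → K := ∏ x ∈ bad, (f x - fun _ => f x x)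
  have heB : e ∈ B := by
    apply Subring.prod_mem
    intro x _
    exact B.sub_mem (hfB x) (hconst _ (hval _ (hfB x) x))
  have he_apply : ∀ y, e y = ∏ x ∈ bad, (f x y - f x x) := by
    intro y
    simp only [e, Finset.prod_apply, Pi.sub_apply]
  have he0 : ∀ y ∈ bad, e y = 0 := by
    intro y hy
    rw [he_apply]
    exact Finset.prod_eq_zero hy (sub_self _)
  have hex₀ : e x₀ ∉ V.nonunits := by
    rw [he_apply]
    apply prod_not_mem_nonunits
    intro x hx
    have hx' : ¬ ∀ g ∈ B, g x - g x₀ ∈ V.nonunits := (Finset.mem_filter.mp hx).2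
    rcases hf x with h | h
    · exact absurd h hx'
    · exact h
  refine ⟨e * q, B.mul_mem heB hq, ?_, ?_⟩
  · have : (e * q) x₀ = ∏ i ∈ ({0, 1} : Finset (Fin 2)), (![e x₀, q x₀] i) := by
      simp [Pi.mul_apply]
    rw [this]
    apply prod_not_mem_nonunits
    intro i _
    fin_cases i
    · simpa using hex₀
    · simpa using hqx
  · have : e * q * b = e * p := by
      funext x
      simp only [Pi.mul_apply]
      by_cases hx : x ∈ bad
      · rw [he0 x hx]; simp
      · have hx' : ∀ g ∈ B, g x - g x₀ ∈ V.nonunits := by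
          by_contra hcon
          exact hx (Finset.mem_filter.mpr ⟨Finset.mem_univ x, hcon⟩)
        rw [mul_assoc, hrel x hx']
    rw [this]
    exact B.mul_mem heB hp

/-- **L05a, disc form.** -/
theorem mem_of_forall_disc [Finite X] (Z : Subring K) (B : Subring (X → K))
    (hconst : ∀ a ∈ Z, (fun _ : X => a) ∈ B) (hval : ∀ f ∈ B, ∀ x, f x ∈ Z) (b : X → K)
    (h : ∀ V : ValuationSubring K, Z ≤ V.toSubring → ∀ x₀ : X,
      ∃ p ∈ B, ∃ q ∈ B, q x₀ ∉ V.nonunits ∧
        ∀ x, (∀ f ∈ B, f x - f x₀ ∈ V.nonunits) → q x * b x = p x) : b ∈ B := by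
  apply mem_of_forall_valuationSubring Z B hconst hval b
  intro V hZV x₀
  obtain ⟨p, hp, q, hq, hqx, hrel⟩ := h V hZV x₀
  exact exists_denominator_of_disc Z B hconst hval b V x₀ p q hp hq hqx hrel

/-- **L05b.** An element of `B` whose values are units at every valuation subring containing `Z`
is a unit of `B`: its pointwise inverse lies in `B`. -/
theorem inv_mem_of_forall_not_mem_nonunits [Finite X] (Z : Subring K) (B : Subring (X → K))
    (hconst : ∀ a ∈ Z, (fun _ : X => a) ∈ B) (hval : ∀ f ∈ B, ∀ x, f x ∈ Z) (q : X → K)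
    (hq : q ∈ B)
    (hunit : ∀ V : ValuationSubring K, Z ≤ V.toSubring → ∀ x : X, q x ∉ V.nonunits) :
    (fun x => (q x)⁻¹) ∈ B := by
  apply mem_of_forall_valuationSubring Z B hconst hval
  intro V hZV x₀
  refine ⟨q, hq, hunit V hZV x₀, ?_⟩
  have : (q * fun x => (q x)⁻¹) = 1 := by
    funext x
    have hx : q x ≠ 0 := by
      intro h0
      apply hunit V hZV x
      rw [h0]
      exact V.nonunits.zero_mem
    simp [hx]
  rw [this]
  exact B.one_mem

end Fermat.Agent.S19.H255
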